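import Fermat.Agent.S38.IA.Hecke.H81.DictTGen
import Fermat.Agent.S38.IA.Hecke.H183.CmpSpecIA

/-!
# Row HARD, cell HECKE, layer 4: leaf IA-DICT-T  (helper81)

`iaDictT : H183.IADictTStatement` (VERBATIM, `Hecke/H183/CmpSpecIA.lean`, helper183): for the
combined family (pivots, then Taylor–Wiles primes), an eigenvector `y` of `T_Q` in `V` fixed by
the diamond operator `⟨u⟩_j` at the Taylor–Wiles prime `q_j` is a newform point of a level `M₁`
with `q_j² ∤ M₁`.  Instance of `dictT_gen` (`DictTGen.lean`) at `qq = Sum.elim pv qv`,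
`s₀ = Sum.inr j`.
-/

set_option autoImplicit false
set_option linter.style.haveILetI false
set_option linter.unusedSectionVars false

open Polynomial IsLocalRing CongruenceSubgroup
open scoped MatrixGroups

namespace Fermat.Agent.S38.IA.Hecke.H81

open Fermat.Agent.S59.Arch Fermat.Agent.S59.TW.H959 Fermat.Agent.S59.TW.H653
open Fermat.Agent.S59.TW.Aut
open Fermat.Agent.S38.IA Fermat.Agent.S38.IA.Hecke Fermat.Agent.S38.H781

/-- `(1, mulSingle j u)` is `mulSingle (inr j) u` in the combined family. -/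
theorem pairU_one_mulSingle {k r : ℕ} {pv : Fin k → ℕ} {qv : Fin r → ℕ} (j : Fin r)
    (u : (ZMod (qv j))ˣ) :
    pairU (pv := pv) (qv := qv) 1 (Pi.mulSingle j u) =
      Pi.mulSingle (M := fun s : Fin k ⊕ Fin r => (ZMod (Sum.elim pv qv s))ˣ) (Sum.inr j) u := by
  funext s
  rcases s with i | j'
  · exact (Function.update_of_ne
      (β := fun s : Fin k ⊕ Fin r => (ZMod (Sum.elim pv qv s))ˣ)
      (a := Sum.inl i) (a' := Sum.inr j) (by simp) u 1).symm
  · by_cases hj : j' = j
    · subst hj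
      exact (Function.update_self (β := fun s : Fin r => (ZMod (qv s))ˣ) j' u 1).trans
        (Function.update_self (β := fun s : Fin k ⊕ Fin r => (ZMod (Sum.elim pv qv s))ˣ)
          (Sum.inr j') u 1).symm
    · exact (Function.update_of_ne (β := fun s : Fin r => (ZMod (qv s))ˣ) hj u 1).trans
        (Function.update_of_ne
          (β := fun s : Fin k ⊕ Fin r => (ZMod (Sum.elim pv qv s))ˣ)
          (a := Sum.inr j') (a' := Sum.inr j) (by simpa using hj) u 1).symm

/-- **IA-DICT-T** (VERBATIM). -/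
theorem iaDictT : H183.IADictTStatement := by
  intro p _ _hp5 𝒪 _ _ _ _ _ _ ρbar Smin hRH _hflat Piv hPiv k pv hpv hpvPiv n r qv hq _ PQ α _hα
    V h a hV hh1 hh2 ha j u hu y hy hfix
  obtain ⟨hqinj, hqprop, -⟩ := hq
  have hpvmem : ∀ i, pv i ∈ Piv := fun i => by
    rw [← hpvPiv]
    exact Finset.mem_image_of_mem _ (Finset.mem_univ i)
  have hdisj : ∀ i j, pv i ≠ qv j := fun i j hij =>
    (hqprop j).2.1 (Finset.mem_union_right _ (hij ▸ hpvmem i))
  have hqqinj : Function.Injective (Sum.elim pv qv) :=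
    injective_sum_elim_h781 pv qv hpv hqinj hdisj
  have hqqP : ∀ s, (Sum.elim pv qv s).Prime ∧ Sum.elim pv qv s ∉ Smin := by
    rintro (i | j)
    · exact ⟨(hPiv _ (hpvmem i)).1, (hPiv _ (hpvmem i)).2.1⟩
    · exact ⟨(hqprop j).1, fun hmem => (hqprop j).2.1 (Finset.mem_union_left _ hmem)⟩
  have hset : Smin ∪ Piv ∪ Finset.univ.image qv =
      Smin ∪ Finset.univ.image (Sum.elim pv qv) := by
    rw [image_sum_elim_h781, hpvPiv, Finset.union_assoc]
  have hfix' : diamondU (isMid_KG p (wilesLevel p .flat Smin Smin) (Sum.elim pv qv))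
      (gLift (wilesLevel p .flat Smin Smin) (Sum.elim pv qv)
        (Pi.mulSingle (M := fun s : Fin k ⊕ Fin r => (ZMod (Sum.elim pv qv s))ˣ)
          (Sum.inr j) u))
      (y : Additive (KG p (wilesLevel p .flat Smin Smin) (Sum.elim pv qv)) →+ 𝒪) = y := by
    rw [← pairU_one_mulSingle]
    exact hfix
  exact dictT_gen (Sum.elim pv qv) hRH hqqinj hqqP hset PQ V hV h
    (isHalf_sum_h781 p pv qv hh1 hh2) a ha (Sum.inr j) u hu y hy.1 hy.2 hfix'

end Fermat.Agent.S38.IA.Hecke.H81
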