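import Fermat.Agent.S59.TW.H81.DictT
import Fermat.Agent.S38.H781.IAModLevel
import Fermat.Agent.S59.TW.H564.ParPkg
import Fermat.Agent.S59.Arch.WilesLevel
import Fermat.Agent.S59.TW.Aut.SkelLemmas

/-!
# Row HARD, cell HECKE, leaf IA-DICT-T: the general-family core  (helper81)

The twin of `S59/TW/H81/DictT.lean` (leaf DICT-T of the cell TW of row S59, on main) for an
ARBITRARY finite family `qq : ι → ℕ` of distinct primes outside `Smin`, an arbitrary type `t` at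
`p`, `Σ = Smin ∪ image qq`, `K = KG p N₀ qq`:

`dictT_gen` : `V ⊆ X_K(𝒪)` a localisation at an eigen-system containing `TsetOf P`, `T = P.T`
acting through `T_ℓ ↦ ⟨ℓ⟩^h T_ℓ` (`p^{m_s} ∣ 2h + 1`), `y ∈ V` a `T`-eigenvector (prime
annihilator) fixed by the diamond operator of a primitive root at `qq s₀`.  Then `y` is a newform
point of a level `M₁` with `(qq s₀)² ∤ M₁`.

All the analytic content is in the general lemmas of `S59/TW/H81` (`frontT_abs`,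
`lift_opB_coeff_eq_zero`, `exists_form_of_occurs`, `exists_newform_of_form`).
-/

set_option autoImplicit false
set_option linter.style.haveILetI false
set_option linter.unusedSectionVars false

open Polynomial IsLocalRing CongruenceSubgroup
open scoped MatrixGroups TensorProduct

namespace Fermat.Agent.S38.IA.Hecke.H81

open Fermat.Agent.S59.Arch Fermat.Agent.S59.TW.H959 Fermat.Agent.S59.TW.H653
open Fermat.Agent.S59.TW.Aut Fermat.Agent.S59.TW.Aut.H673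
open Fermat.Agent.S59.TW.H658 Fermat.Agent.S59.TW.H81 Fermat.Agent.S59.TW.H81.D561
open Fermat.Agent.S38.IA.Hecke Fermat.Agent.S38.H781
open ModularCurve.Period

/-- A submodule of `Hom(K, 𝒪)` is torsion-free over the domain `𝒪`. -/
theorem torsionFree_gen {K : Subgroup SL(2, ℤ)} {𝒪 : Type} [CommRing 𝒪] [IsDomain 𝒪]
    (V : Submodule 𝒪 (Additive K →+ 𝒪)) (c : 𝒪) (v : V) (hcv : c • v = 0) :
    c = 0 ∨ v = 0 := by
  by_cases hc : c = 0
  · exact Or.inl hc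
  · right
    apply Subtype.ext
    refine AddMonoidHom.ext fun k => ?_
    have h1 : ((c • v : V) : Additive K →+ 𝒪) k = 0 := by rw [hcv]; rfl
    have h2 : c * (v : Additive K →+ 𝒪) k = 0 := h1
    rcases mul_eq_zero.mp h2 with h3 | h3
    · exact absurd h3 hc
    · exact h3

section Dia

variable {p N₀ : ℕ} {ι : Type} [Fintype ι] {qq : ι → ℕ}
  {𝒪 : Type} [CommRing 𝒪] [IsLocalRing 𝒪] {Tset Uset : Set (ℕ × 𝒪)}
  {V : Submodule 𝒪 (Additive (KG p N₀ qq) →+ 𝒪)}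

/-- The restricted diamond operator of `g ∈ ∏ (ℤ/qq s)ˣ` on `V`. -/
noncomputable def diaGV (hV : IsLocPart (isMid_KG p N₀ qq) Tset Uset V)
    (g : ∀ s : ι, (ZMod (qq s))ˣ) : V →ₗ[𝒪] V where
  toFun v := ⟨diamondU (isMid_KG p N₀ qq) (gLift N₀ qq g) v, hV.diamondU_mem _ v.2⟩
  map_add' _ _ := Subtype.ext (diamondU_add _ _ _ _)
  map_smul' c _ := Subtype.ext (diamondU_smul _ _ c _)

theorem coe_diaGV (hV : IsLocPart (isMid_KG p N₀ qq) Tset Uset V)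
    (g : ∀ s : ι, (ZMod (qq s))ˣ) (v : V) :
    ((diaGV hV g v : V) : Additive (KG p N₀ qq) →+ 𝒪) =
      diamondU (isMid_KG p N₀ qq) (gLift N₀ qq g) v := rfl

/-- The diamond operators on `V`, as a monoid homomorphism. -/
noncomputable def diaGHom [NeZero (gLevel N₀ qq)]
    (hsurj : Function.Surjective (gRed N₀ qq))
    (hV : IsLocPart (isMid_KG p N₀ qq) Tset Uset V) :
    (∀ s : ι, (ZMod (qq s))ˣ) →* Module.End 𝒪 V where
  toFun g := diaGV hV g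
  map_one' := by
    refine LinearMap.ext fun v => Subtype.ext ?_
    rw [coe_diaGV]
    exact diamondU_gLift_one p N₀ qq hsurj _
  map_mul' g g' := by
    refine LinearMap.ext fun v => Subtype.ext ?_
    rw [coe_diaGV, Module.End.mul_apply, coe_diaGV, coe_diaGV]
    exact diamondU_gLift_mul p N₀ qq hsurj g g' _

@[simp] theorem diaGHom_apply [NeZero (gLevel N₀ qq)]
    (hsurj : Function.Surjective (gRed N₀ qq))
    (hV : IsLocPart (isMid_KG p N₀ qq) Tset Uset V) (g : ∀ s : ι, (ZMod (qq s))ˣ) :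
    diaGHom hsurj hV g = diaGV hV g := rfl

end Dia

section Gen

variable {p : ℕ} [hpF : Fact p.Prime]
  {𝒪 : Type} [CommRing 𝒪] [IsDomain 𝒪] [IsDiscreteValuationRing 𝒪]
  [IsAdicComplete (maximalIdeal 𝒪) 𝒪] [Finite (ResidueField 𝒪)] [CharZero 𝒪]
  {ρbar : ResidualGaloisRep (ResidueField 𝒪)} {Smin : Finset ℕ} {t : PType} {Sig : Finset ℕ}
  [NeZero (wilesLevel p t Smin Sig)]
  {ι : Type} [Fintype ι] [DecidableEq ι] (qq : ι → ℕ)

/-- The generators `T_ℓ ⊗ 1`, `1 ⊗ [d]` of `T ⊗ 𝒪[∏ (ℤ/qq s)ˣ]`. -/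
noncomputable def genG (P : HeckePkg p 𝒪 ρbar t Smin Sig)
    (hN : ∀ ℓ : ℕ, ℓ.Prime → ℓ ∉ (↑Sig : Set ℕ) → ¬ ℓ ∣ wilesLevel p t Smin Sig) {N' : ℕ} :
    OpIdx N' (↑Sig : Set ℕ) (gLevel (wilesLevel p t Smin Smin) qq) →
      P.T ⊗[𝒪] MonoidAlgebra 𝒪 (∀ s : ι, (ZMod (qq s))ˣ)
  | Sum.inl i =>
    P.H.π (CuspForm.heckeAlgebra.T i.2.1 (hN i.1 i.2.1 i.2.2.2) i.2.2.2) ⊗ₜ[𝒪] 1
  | Sum.inr d => 1 ⊗ₜ[𝒪] MonoidAlgebra.of 𝒪 _ (gRed (wilesLevel p t Smin Smin) qq d)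

theorem genG_inl (P : HeckePkg p 𝒪 ρbar t Smin Sig)
    (hN : ∀ ℓ : ℕ, ℓ.Prime → ℓ ∉ (↑Sig : Set ℕ) → ¬ ℓ ∣ wilesLevel p t Smin Sig) {N' : ℕ}
    (i : GoodPrime N' (↑Sig : Set ℕ)) :
    genG qq P hN (Sum.inl i : OpIdx N' (↑Sig : Set ℕ)
      (gLevel (wilesLevel p t Smin Smin) qq)) =
      P.H.π (CuspForm.heckeAlgebra.T i.2.1 (hN i.1 i.2.1 i.2.2.2) i.2.2.2) ⊗ₜ[𝒪] 1 := rfl

theorem genG_inr (P : HeckePkg p 𝒪 ρbar t Smin Sig)
    (hN : ∀ ℓ : ℕ, ℓ.Prime → ℓ ∉ (↑Sig : Set ℕ) → ¬ ℓ ∣ wilesLevel p t Smin Sig) {N' : ℕ}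
    (d : (ZMod (gLevel (wilesLevel p t Smin Smin) qq))ˣ) :
    genG qq P hN (Sum.inr d : OpIdx N' (↑Sig : Set ℕ)
      (gLevel (wilesLevel p t Smin Smin) qq)) =
      1 ⊗ₜ[𝒪] MonoidAlgebra.of 𝒪 _ (gRed (wilesLevel p t Smin Smin) qq d) := rfl

set_option maxHeartbeats 400000 in
include hpF in
/-- **IA-DICT-T, front (general family).**  The Betti point of an eigenvector fixed by the
diamond operator of a primitive root at `qq s₀`. -/
theorem occG (hRH : ResidualHyp p 𝒪 ρbar Smin)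
    (hqi : Function.Injective qq) (hq : ∀ s, (qq s).Prime ∧ qq s ∉ Smin)
    (hSig : Sig = Smin ∪ Finset.univ.image qq)
    (P : HeckePkg p 𝒪 ρbar t Smin Sig) {Uset : Set (ℕ × 𝒪)}
    (V : Submodule 𝒪 (Additive (KG p (wilesLevel p t Smin Smin) qq) →+ 𝒪))
    (hV : IsLocPart (isMid_KG p (wilesLevel p t Smin Smin) qq) (TsetOf P) Uset V)
    (h : ℕ) (a : P.T →ₐ[𝒪] Module.End 𝒪 V)
    (ha : ActsBy P V a (tOpTw (isMid_KG p (wilesLevel p t Smin Smin) qq) 𝒪 h))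
    (s₀ : ι) (u : (ZMod (qq s₀))ˣ) (hu : orderOf u = qq s₀ - 1)
    (y : V) (hy : y ≠ 0)
    (hann : ∀ s s' : P.T, a (s * s') y = 0 → a s y = 0 ∨ a s' y = 0)
    (hfix : diamondU (isMid_KG p (wilesLevel p t Smin Smin) qq)
      (gLift (wilesLevel p t Smin Smin) qq (Pi.mulSingle s₀ u))
      (y : Additive (KG p (wilesLevel p t Smin Smin) qq) →+ 𝒪) = y) :
    ∃ (O' : Type) (_ : CommRing O') (_ : IsDomain O') (_ : IsDiscreteValuationRing O')
      (_ : IsAdicComplete (maximalIdeal O') O') (_ : Finite (ResidueField O')) (_ : CharZero O')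
      (emb : P.T →+* O'), IsLocalHom emb ∧ (∀ s : P.T, a s y = 0 ↔ emb s = 0) ∧
      ∀ (N' : ℕ) (hMN : gLevel (wilesLevel p t Smin Smin) qq ∣ N'),
        ∃ vals : OpIdx N' (↑Sig : Set ℕ) (gLevel (wilesLevel p t Smin Smin) qq) → O',
          (∀ (ℓ : ℕ) (hℓ : ℓ.Prime) (hℓN' : ¬ ℓ ∣ N')
            (hℓN : ¬ ℓ ∣ wilesLevel p t Smin Sig) (hℓS : ℓ ∉ (↑Sig : Set ℕ)),
            vals (Sum.inl ⟨ℓ, hℓ, hℓN', hℓS⟩) =
              emb (P.H.π (CuspForm.heckeAlgebra.T hℓ hℓN hℓS))) ∧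
          (∀ d : (ZMod (gLevel (wilesLevel p t Smin Smin) qq))ˣ,
            (∀ s, s ≠ s₀ → gRed (wilesLevel p t Smin Smin) qq d s = 1) →
              vals (Sum.inr d) = 1) ∧
          ∀ Pl : FreeAlgebra ℤ (OpIdx N' (↑Sig : Set ℕ)
              (gLevel (wilesLevel p t Smin Smin) qq)),
            (∀ z : Additive (KG p (wilesLevel p t Smin Smin) qq) →+ ℤ,
              IsParabolicHom (KG p (wilesLevel p t Smin Smin) qq) z →
              FreeAlgebra.lift ℤ (opB (isMid_KG p (wilesLevel p t Smin Smin) qq) ℤ hMN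
                (fun ℓ => uOf (gLevel (wilesLevel p t Smin Smin) qq) ℓ ^ h)) Pl z = 0) →
            FreeAlgebra.lift ℤ vals Pl = 0 := by
  classical
  have hp : p.Prime := Fact.out
  have hS := hRH.hSmin
  have hpS := hRH.hpSmin
  have hprime : ∀ s, (qq s).Prime := fun s => (hq s).1
  have hN₀ : wilesLevel p t Smin Smin ≠ 0 := wilesLevel_ne_zero hp hS hS
  haveI hM : NeZero (gLevel (wilesLevel p t Smin Smin) qq) :=
    ⟨gLevel_ne_zero _ qq hN₀ hprime⟩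
  have hK := isMid_KG p (wilesLevel p t Smin Smin) qq
  haveI : (KG p (wilesLevel p t Smin Smin) qq).FiniteIndex :=
    Fermat.Agent.S59.TW.H564.finiteIndex_of_Gamma1_le hK.ge
  have hSigP : ∀ q ∈ Sig, q.Prime := by
    intro q hqS
    rw [hSig, Finset.mem_union] at hqS
    rcases hqS with h1 | h1
    · exact hS q h1
    · obtain ⟨s, -, rfl⟩ := Finset.mem_image.mp h1
      exact (hq s).1
  have hsub : Smin ⊆ Sig := by
    rw [hSig]
    exact Finset.subset_union_left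
  have hNS : ∀ q : ℕ, q.Prime → q ∣ wilesLevel p t Smin Sig → q ∈ (↑Sig : Set ℕ) :=
    fun q hqp hd => Finset.mem_coe.mpr
      (mem_of_prime_dvd_wilesLevel hp hS hSigP hpS hsub q hqp hd)
  have hN : ∀ ℓ : ℕ, ℓ.Prime → ℓ ∉ (↑Sig : Set ℕ) → ¬ ℓ ∣ wilesLevel p t Smin Sig :=
    fun ℓ hℓ hℓS hd => hℓS (hNS ℓ hℓ hd)
  have hMW : gLevel (wilesLevel p t Smin Smin) qq ∣ wilesLevel p t Smin Sig := by
    rw [hSig]
    exact gLevel_dvd_h781 p t Smin qq hqi fun s => (hq s).2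
  have hsurj : Function.Surjective (gRed (wilesLevel p t Smin Smin) qq) :=
    gRed_surjective _ qq hN₀ hqi hprime
  -- commutation
  have hcommv : ∀ (g : ∀ s : ι, (ZMod (qq s))ˣ) (s : P.T) (v : V),
      diaGV hV g (a s v) = a s (diaGV hV g v) := by
    intro g s
    refine pkg_induction P hNS
      (fun s => ∀ v : V, diaGV hV g (a s v) = a s (diaGV hV g v)) ?_ ?_ ?_ ?_ s
    · intro c v
      rw [AlgHom.commutes]
      exact (diaGV hV g).map_smul c v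
    · intro x y' hx hy' v
      rw [map_add, LinearMap.add_apply, map_add, hx, hy', LinearMap.add_apply]
    · intro x y' hx hy' v
      rw [map_mul, Module.End.mul_apply, hx, hy', Module.End.mul_apply]
    · intro ℓ hℓ hℓN hℓS v
      have hℓM : ¬ ℓ ∣ gLevel (wilesLevel p t Smin Smin) qq := fun hd => hℓN (hd.trans hMW)
      have : Fact ℓ.Prime := ⟨hℓ⟩
      apply Subtype.ext
      rw [coe_diaGV, ha ℓ hℓ hℓN hℓS v, ha ℓ hℓ hℓN hℓS (diaGV hV g v), coe_diaGV]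
      unfold tOpTw tOp
      have h1 := diamondU_TK hK hℓM (gLift (wilesLevel p t Smin Smin) qq g)
        (v : Additive (KG p (wilesLevel p t Smin Smin) qq) →+ 𝒪)
      rw [h1, ← diamondU_mul, ← diamondU_mul, mul_comm]
  have hcomm : ∀ (s : P.T) (g : ∀ s : ι, (ZMod (qq s))ˣ),
      Commute (a s) (diaGHom hsurj hV g) := by
    intro s g
    refine LinearMap.ext fun v => ?_
    rw [Module.End.mul_apply, Module.End.mul_apply, diaGHom_apply]
    exact (hcommv g s v).symm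
  -- the fixed elements
  have hfix0 : diaGHom hsurj hV (Pi.mulSingle s₀ u) y = y := by
    apply Subtype.ext
    rw [diaGHom_apply, coe_diaGV]
    exact hfix
  have hfixall : ∀ g ∈ {g : ∀ s : ι, (ZMod (qq s))ˣ | ∀ s, s ≠ s₀ → g s = 1},
      diaGHom hsurj hV g y = y := by
    intro g hg
    obtain ⟨n, hn⟩ := exists_pow_eq_of_orderOf_h81 (hprime s₀) u hu (g s₀)
    have h1 : g = Pi.mulSingle s₀ u ^ n := by
      funext s
      by_cases hs : s = s₀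
      · subst hs
        rw [Pi.pow_apply, Pi.mulSingle_eq_same, hn]
      · rw [Pi.pow_apply, Pi.mulSingle_eq_of_ne hs, one_pow]
        exact hg s hs
    rw [h1, map_pow]
    clear h1 hn
    induction n with
    | zero => rw [pow_zero, Module.End.one_apply]
    | succ n ih => rw [pow_succ, Module.End.mul_apply, hfix0, ih]
  obtain ⟨O', i1, i2, i3, i4, i5, i6, i7, ev, hloc, -, hx, hker, hχ, hrel⟩ :=
    frontT_abs 𝒪 P.T (∀ s : ι, (ZMod (qq s))ˣ) V (torsionFree_gen V) a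
      (diaGHom hsurj hV) hcomm y hy hann _ hfixall
  refine ⟨O', i1, i2, i3, i4, i5, i6, (ev.comp
    (Algebra.TensorProduct.includeLeft :
      P.T →ₐ[𝒪] P.T ⊗[𝒪] MonoidAlgebra 𝒪 (∀ s : ι, (ZMod (qq s))ˣ))).toRingHom,
    hx, fun s => (hker s).symm, fun N' hMN => ?_⟩
  refine ⟨fun idx => ev (genG qq P hN idx), fun ℓ hℓ hℓN' hℓN hℓS => rfl, fun d hd => ?_,
    fun Pl hP => ?_⟩
  · exact hχ _ hd
  · -- the relation
    have hΘl : ∀ s : P.T, thetaH673 (𝒪 := 𝒪) (T := P.T) (G := ∀ s : ι, (ZMod (qq s))ˣ)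
        (V := V) a (diaGHom hsurj hV) hcomm
          (s ⊗ₜ[𝒪] (1 : MonoidAlgebra 𝒪 (∀ s : ι, (ZMod (qq s))ˣ))) = a s := fun s => by
      rw [← Algebra.TensorProduct.includeLeft_apply (R := 𝒪) (S := 𝒪), thetaH673_left]
    have hΘr : ∀ g : ∀ s : ι, (ZMod (qq s))ˣ,
        thetaH673 (𝒪 := 𝒪) (T := P.T) (G := ∀ s : ι, (ZMod (qq s))ˣ)
        (V := V) a (diaGHom hsurj hV) hcomm
          ((1 : P.T) ⊗ₜ[𝒪] MonoidAlgebra.of 𝒪 (∀ s : ι, (ZMod (qq s))ˣ) g) =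
          diaGHom hsurj hV g := fun g => by
      rw [thetaH673_right]
    obtain ⟨Θ, hΘ⟩ : ∃ Θ : P.T ⊗[𝒪] MonoidAlgebra 𝒪 (∀ s : ι, (ZMod (qq s))ˣ) →ₐ[𝒪]
        Module.End 𝒪 V, Θ = thetaH673 (𝒪 := 𝒪) (T := P.T) (G := ∀ s : ι, (ZMod (qq s))ˣ)
          (V := V) a (diaGHom hsurj hV) hcomm := ⟨_, rfl⟩
    rw [← hΘ] at hrel hΘl hΘr
    have h1 : FreeAlgebra.lift ℤ (fun idx => ev (genG qq P hN (N' := N') idx)) Pl =
        ev (FreeAlgebra.lift ℤ (genG qq P hN (N' := N')) Pl) :=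
      lift_ringHom_h81 ev (genG qq P hN (N' := N')) Pl
    rw [h1]
    apply hrel
    refine LinearMap.ext fun v => ?_
    rw [LinearMap.zero_apply]
    apply Subtype.ext
    have hpar : ∀ v ∈ V, IsParabolicHom (KG p (wilesLevel p t Smin Smin) qq) v :=
      Fermat.Agent.S59.TW.H564.isParabolic_of_pkg hRH (hsub hpS) P hNS hK hMW hV
    have h2 := lift_opB_coeff_eq_zero hK hMN
      (fun ℓ => uOf (gLevel (wilesLevel p t Smin Smin) qq) ℓ ^ h) Pl hP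
      (v : Additive (KG p (wilesLevel p t Smin Smin) qq) →+ 𝒪) (hpar v v.2)
    have hint : ∀ (idx : OpIdx N' (↑Sig : Set ℕ) (gLevel (wilesLevel p t Smin Smin) qq))
        (m : V),
        ((Θ (genG qq P hN idx) m : V) : Additive (KG p (wilesLevel p t Smin Smin) qq) →+ 𝒪) =
          opB hK 𝒪 hMN (fun ℓ => uOf (gLevel (wilesLevel p t Smin Smin) qq) ℓ ^ h) idx
            (m : Additive (KG p (wilesLevel p t Smin Smin) qq) →+ 𝒪) := by
      intro idx m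
      rcases idx with i | d
      · rw [genG_inl, hΘl, ha i.1 i.2.1 (hN i.1 i.2.1 i.2.2.2) i.2.2.2 m]
        rfl
      · rw [genG_inr, hΘr, diaGHom_apply, coe_diaGV, opB_inr_apply]
        apply diamondU_eq_of_gChi
        apply gChi_eq_of_gRed
        exact gRed_gLift _ _ ⟨d, rfl⟩
    have h3 := lift_intertwine
      (fun idx => endToInt 𝒪 V (Θ (genG qq P hN (N' := N') idx)))
      (opB hK 𝒪 hMN (fun ℓ => uOf (gLevel (wilesLevel p t Smin Smin) qq) ℓ ^ h))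
      (V.subtype.toAddMonoidHom) (fun idx m => hint idx m) Pl v
    have h5 : FreeAlgebra.lift ℤ (fun idx => Θ (genG qq P hN (N' := N') idx)) Pl =
        Θ (FreeAlgebra.lift ℤ (genG qq P hN (N' := N')) Pl) :=
      lift_ringHom_h81 Θ (genG qq P hN (N' := N')) Pl
    rw [lift_endToInt, h5] at h3
    rw [Submodule.coe_zero, ← h2]
    exact h3

set_option maxHeartbeats 400000 in
include hpF in
/-- **IA-DICT-T, general family.**  An eigenvector fixed by the diamond operator of a primitive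
root at `qq s₀` is a newform point of a level `M₁` with `(qq s₀)² ∤ M₁`. -/
theorem dictT_gen (hRH : ResidualHyp p 𝒪 ρbar Smin)
    (hqi : Function.Injective qq) (hq : ∀ s, (qq s).Prime ∧ qq s ∉ Smin)
    (hSig : Sig = Smin ∪ Finset.univ.image qq)
    (P : HeckePkg p 𝒪 ρbar t Smin Sig) {Uset : Set (ℕ × 𝒪)}
    (V : Submodule 𝒪 (Additive (KG p (wilesLevel p t Smin Smin) qq) →+ 𝒪))
    (hV : IsLocPart (isMid_KG p (wilesLevel p t Smin Smin) qq) (TsetOf P) Uset V)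
    (h : ℕ) (hh : ∀ s, p ^ padicValNat p (qq s - 1) ∣ 2 * h + 1)
    (a : P.T →ₐ[𝒪] Module.End 𝒪 V)
    (ha : ActsBy P V a (tOpTw (isMid_KG p (wilesLevel p t Smin Smin) qq) 𝒪 h))
    (s₀ : ι) (u : (ZMod (qq s₀))ˣ) (hu : orderOf u = qq s₀ - 1)
    (y : V) (hy : y ≠ 0)
    (hann : ∀ s s' : P.T, a (s * s') y = 0 → a s y = 0 ∨ a s' y = 0)
    (hfix : diamondU (isMid_KG p (wilesLevel p t Smin Smin) qq)
      (gLift (wilesLevel p t Smin Smin) qq (Pi.mulSingle s₀ u))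
      (y : Additive (KG p (wilesLevel p t Smin Smin) qq) →+ 𝒪) = y) :
    ∃ (O' : Type) (_ : CommRing O') (_ : IsDomain O') (_ : IsDiscreteValuationRing O')
      (_ : IsAdicComplete (maximalIdeal O') O') (_ : Finite (ResidueField O')) (_ : CharZero O')
      (emb : P.T →+* O'), IsLocalHom emb ∧ (∀ s : P.T, a s y = 0 ↔ emb s = 0) ∧
      ∃ (M₁ : ℕ) (_ : NeZero M₁) (g : CuspForm (Gamma0 M₁) 2), g.IsNewform ∧
        ¬ qq s₀ ^ 2 ∣ M₁ ∧ (∀ q : ℕ, q.Prime → q ∣ M₁ → q ∈ Sig) ∧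
        ∃ (chig : CuspForm.heckeAlgebra M₁ 2 (↑Sig : Set ℕ) →+* ℂ)
          (iota : chig.range →+* O'),
          (∀ (ℓ : ℕ) (hℓ : ℓ.Prime) (hℓM : ¬ ℓ ∣ M₁) (hℓS : ℓ ∉ (↑Sig : Set ℕ)),
            chig (CuspForm.heckeAlgebra.T hℓ hℓM hℓS) = ModularFormClass.qCoeff g ℓ) ∧
          ∀ (ℓ : ℕ) (hℓ : ℓ.Prime) (hℓN : ¬ ℓ ∣ wilesLevel p t Smin Sig) (hℓM : ¬ ℓ ∣ M₁)
            (hℓS : ℓ ∉ (↑Sig : Set ℕ)),
            iota (chig.rangeRestrict (CuspForm.heckeAlgebra.T hℓ hℓM hℓS)) =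
              emb (P.H.π (CuspForm.heckeAlgebra.T hℓ hℓN hℓS)) := by
  classical
  have hp : p.Prime := Fact.out
  have hS := hRH.hSmin
  have hpS := hRH.hpSmin
  have hprime : ∀ s, (qq s).Prime := fun s => (hq s).1
  have hN₀ : wilesLevel p t Smin Smin ≠ 0 := wilesLevel_ne_zero hp hS hS
  haveI hM : NeZero (gLevel (wilesLevel p t Smin Smin) qq) :=
    ⟨gLevel_ne_zero _ qq hN₀ hprime⟩
  have hK := isMid_KG p (wilesLevel p t Smin Smin) qq
  haveI : (KG p (wilesLevel p t Smin Smin) qq).FiniteIndex :=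
    Fermat.Agent.S59.TW.H564.finiteIndex_of_Gamma1_le hK.ge
  have hSigP : ∀ q ∈ Sig, q.Prime := by
    intro q hqS
    rw [hSig, Finset.mem_union] at hqS
    rcases hqS with h1 | h1
    · exact hS q h1
    · obtain ⟨s, -, rfl⟩ := Finset.mem_image.mp h1
      exact (hq s).1
  have hsub : Smin ⊆ Sig := by
    rw [hSig]
    exact Finset.subset_union_left
  have hNS : ∀ q : ℕ, q.Prime → q ∣ wilesLevel p t Smin Sig → q ∈ (↑Sig : Set ℕ) :=
    fun q hqp hd => Finset.mem_coe.mpr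
      (mem_of_prime_dvd_wilesLevel hp hS hSigP hpS hsub q hqp hd)
  obtain ⟨O', i1, i2, i3, i4, i5, i6, emb, hloc, hker, hvals⟩ :=
    occG qq hRH hqi hq hSig P V hV h a ha s₀ u hu y hy hann hfix
  -- the level
  obtain ⟨M, hMdef⟩ : ∃ M : ℕ, M = gLevel (wilesLevel p t Smin Smin) qq := ⟨_, rfl⟩
  obtain ⟨Qs, hQsdef⟩ : ∃ Qs : List ℕ, Qs = (Finset.univ.erase s₀).toList.map qq := ⟨_, rfl⟩
  have hQsprod : Qs.prod = ∏ s ∈ Finset.univ.erase s₀, qq s := by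
    rw [hQsdef]
    exact Finset.prod_map_toList _ _
  have hQsnd : Qs.Nodup := by
    rw [hQsdef]
    exact (Finset.nodup_toList _).map hqi
  have hQsmem : ∀ q : ℕ, q ∈ Qs ↔ ∃ s, s ≠ s₀ ∧ qq s = q := by
    intro q
    rw [hQsdef, List.mem_map]
    constructor
    · rintro ⟨s, hs, rfl⟩
      exact ⟨s, Finset.ne_of_mem_erase (Finset.mem_toList.mp hs), rfl⟩
    · rintro ⟨s, hs, rfl⟩
      exact ⟨s, Finset.mem_toList.mpr (Finset.mem_erase.mpr ⟨hs, Finset.mem_univ s⟩), rfl⟩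
  have hQsmul : qq s₀ * Qs.prod = ∏ s, qq s := by
    rw [hQsprod]
    exact Finset.mul_prod_erase Finset.univ qq (Finset.mem_univ s₀)
  have hQs0 : Qs.prod ≠ 0 := by
    intro h0
    rw [h0, mul_zero] at hQsmul
    exact (Finset.prod_ne_zero_iff.mpr fun s _ => (hprime s).ne_zero) hQsmul.symm
  have hndvd : ¬ qq s₀ ∣ Qs.prod := by
    intro hd
    obtain ⟨q, hqQ, hdq⟩ := (Prime.dvd_prod_iff (hprime s₀).prime).mp hd
    obtain ⟨s, hs, rfl⟩ := (hQsmem q).mp hqQ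
    exact hs (hqi ((Nat.prime_dvd_prime_iff_eq (hprime s₀) (hprime s)).mp hdq).symm)
  haveI hN'' : NeZero (gLevel (wilesLevel p t Smin Smin) qq * Qs.prod) :=
    ⟨Nat.mul_ne_zero (NeZero.ne _) hQs0⟩
  have hMN : gLevel (wilesLevel p t Smin Smin) qq ∣
      gLevel (wilesLevel p t Smin Smin) qq * Qs.prod := Dvd.intro _ rfl
  have hdvdW : gLevel (wilesLevel p t Smin Smin) qq * Qs.prod ∣ wilesLevel p t Smin Sig := by
    have h1 : gLevel (wilesLevel p t Smin Smin) qq * ∏ s, qq s ∣ wilesLevel p t Smin Sig := by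
      rw [hSig]
      exact gLevel_mul_prod_dvd_h781 p t Smin qq hqi fun s => (hq s).2
    refine dvd_trans ?_ h1
    rw [← hQsmul]
    exact mul_dvd_mul_left _ (Dvd.intro_left _ rfl)
  have hSigd : ∀ q : ℕ, q.Prime → q ∣ gLevel (wilesLevel p t Smin Smin) qq * Qs.prod →
      q ∈ (↑Sig : Set ℕ) := fun q hqp hqd => hNS q hqp (hqd.trans hdvdW)
  have hN2 : ∀ ℓ : ℕ, ℓ.Prime → ℓ ∉ (↑Sig : Set ℕ) →
      ¬ ℓ ∣ gLevel (wilesLevel p t Smin Smin) qq * Qs.prod :=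
    fun ℓ hℓ hℓS hd => hℓS (hSigd ℓ hℓ hd)
  obtain ⟨vals, hv1, hv2, hocc⟩ := hvals (gLevel (wilesLevel p t Smin Smin) qq * Qs.prod) hMN
  -- the form
  obtain ⟨F, c, hF, hFe, hL⟩ := exists_form_of_occurs hK Qs hQsnd
    (fun q hq' => by
      obtain ⟨s, -, rfl⟩ := (hQsmem q).mp hq'
      exact ⟨hprime s, exists_gLevel_eq_h781 p t Smin qq hpS hS hqi hq s⟩)
    h (fun γ hγ => pow_mem_KG_h781 p _ qq hh hγ) hMN dvd_rfl vals
    (fun d v hd hv => by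
      apply hv2
      intro s hs
      apply Units.ext
      rw [gRed_apply]
      show ZMod.castHom (dvd_gLevel (wilesLevel p t Smin Smin) qq s) (ZMod (qq s))
        ((v : (ZMod (gLevel (wilesLevel p t Smin Smin) qq))ˣ) :
          ZMod (gLevel (wilesLevel p t Smin Smin) qq)) = 1
      rw [hv, map_intCast]
      have h2 : ((qq s : ℕ) : ℤ) ∣ d - 1 := by
        refine dvd_trans (Int.natCast_dvd_natCast.mpr ?_) hd
        exact List.dvd_prod ((hQsmem _).mpr ⟨s, hs, rfl⟩)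
      have h3 := (ZMod.intCast_zmod_eq_zero_iff_dvd _ _).mpr h2
      push_cast at h3
      exact sub_eq_zero.mp h3)
    hocc
  -- the newform
  obtain ⟨lam, hlam_eq⟩ : ∃ lam : ℕ → ℂ, ∀ (ℓ : ℕ) (hℓ : ℓ.Prime)
      (hℓN : ¬ ℓ ∣ gLevel (wilesLevel p t Smin Smin) qq * Qs.prod)
      (hℓS : ℓ ∉ (↑Sig : Set ℕ)), lam ℓ = c (Sum.inl ⟨ℓ, hℓ, hℓN, hℓS⟩) :=
    ⟨fun ℓ => if hℓ : ℓ.Prime ∧ ¬ ℓ ∣ gLevel (wilesLevel p t Smin Smin) qq * Qs.prod ∧
        ℓ ∉ (↑Sig : Set ℕ) then c (Sum.inl ⟨ℓ, hℓ⟩) else 0,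
      fun ℓ hℓ hℓN hℓS => dif_pos ⟨hℓ, hℓN, hℓS⟩⟩
  obtain ⟨M₁, hM₁, g, hg, hM₁N, hgl⟩ := exists_newform_of_form
    (↑Sig : Set ℕ) F hF lam (fun ℓ hℓ hℓN hℓS => by
      rw [hlam_eq ℓ hℓ hℓN hℓS]
      exact hFe ⟨ℓ, hℓ, hℓN, hℓS⟩)
  have hM₁S : ∀ q : ℕ, q.Prime → q ∣ M₁ → q ∈ (↑Sig : Set ℕ) :=
    fun q hqp hqd => hSigd q hqp (hqd.trans hM₁N)
  -- the ring homomorphism
  obtain ⟨L, hLP⟩ := exists_ringHom_of_ker_le c vals hL
  have hle : ∀ x ∈ (Fermat.Agent.S58.H94.chigOf hg.1 (↑Sig : Set ℕ)).range,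
      x ∈ (FreeAlgebra.lift ℤ c).range := by
    intro x hx
    have h1 := Fermat.Agent.S58.H94.chigOf_range_le hg.1
      (↑Sig : Set ℕ) (FreeAlgebra.lift ℤ c).range.toSubring
      (fun ℓ hℓ hℓM hℓS => by
        rw [hgl ℓ hℓ (hN2 ℓ hℓ hℓS) hℓS, hlam_eq ℓ hℓ (hN2 ℓ hℓ hℓS) hℓS]
        exact ⟨FreeAlgebra.ι ℤ _, FreeAlgebra.lift_ι_apply _ _⟩) hM₁S
    exact h1 hx
  let e : (Fermat.Agent.S58.H94.chigOf hg.1 (↑Sig : Set ℕ)).range →+*
      (FreeAlgebra.lift ℤ c).range :=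
    { toFun := fun x => ⟨x.1, hle x.1 x.2⟩
      map_one' := rfl
      map_mul' := fun _ _ => rfl
      map_zero' := rfl
      map_add' := fun _ _ => rfl }
  refine ⟨O', i1, i2, i3, i4, i5, i6, emb, hloc, hker, M₁, hM₁, g, hg, ?_,
    fun q hqp hqd => Finset.mem_coe.mp (hM₁S q hqp hqd),
    Fermat.Agent.S58.H94.chigOf hg.1 (↑Sig : Set ℕ), L.comp e, ?_, ?_⟩
  · -- `(qq s₀)² ∤ M₁`
    intro hsq
    have h1 : qq s₀ ^ 2 ∣ gLevel (wilesLevel p t Smin Smin) qq * Qs.prod := hsq.trans hM₁N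
    obtain ⟨M', hM', hcop⟩ := exists_gLevel_eq_h781 p t Smin qq hpS hS hqi hq s₀
    have h2 : qq s₀ * qq s₀ ∣ qq s₀ * (M' * Qs.prod) := by
      have h3 : gLevel (wilesLevel p t Smin Smin) qq * Qs.prod = qq s₀ * (M' * Qs.prod) := by
        rw [hM']; ring
      rw [← h3, ← pow_two]
      exact h1
    have h4 : qq s₀ ∣ M' * Qs.prod :=
      (Nat.mul_dvd_mul_iff_left (hprime s₀).pos).mp h2
    rcases (Nat.Prime.dvd_mul (hprime s₀)).mp h4 with h5 | h5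
    · have h6 : Nat.Coprime (qq s₀) M' := hcop.symm
      exact (Nat.Prime.coprime_iff_not_dvd (hprime s₀)).mp h6 h5
    · exact hndvd h5
  · intro ℓ hℓ hℓM hℓS
    exact Fermat.Agent.S58.H94.chigOf_T hg.1 _ hℓ hℓM hℓS
  · intro ℓ hℓ hℓN hℓM hℓS
    have h1 : e ((Fermat.Agent.S58.H94.chigOf hg.1 (↑Sig : Set ℕ)).rangeRestrict
        (CuspForm.heckeAlgebra.T hℓ hℓM hℓS)) =
        ⟨FreeAlgebra.lift ℤ c (FreeAlgebra.ι ℤ (Sum.inl ⟨ℓ, hℓ, hN2 ℓ hℓ hℓS, hℓS⟩)),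
          ⟨_, rfl⟩⟩ := by
      apply Subtype.ext
      show Fermat.Agent.S58.H94.chigOf hg.1 _ (CuspForm.heckeAlgebra.T hℓ hℓM hℓS) =
        FreeAlgebra.lift ℤ c (FreeAlgebra.ι ℤ (Sum.inl ⟨ℓ, hℓ, hN2 ℓ hℓ hℓS, hℓS⟩))
      rw [Fermat.Agent.S58.H94.chigOf_T hg.1 _ hℓ hℓM hℓS, hgl ℓ hℓ (hN2 ℓ hℓ hℓS) hℓS,
        hlam_eq ℓ hℓ (hN2 ℓ hℓ hℓS) hℓS, FreeAlgebra.lift_ι_apply]
    rw [RingHom.comp_apply, h1, hLP, FreeAlgebra.lift_ι_apply, hv1 ℓ hℓ (hN2 ℓ hℓ hℓS) hℓN hℓS]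

end Gen

end Fermat.Agent.S38.IA.Hecke.H81
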